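/-
Cluster GAL, block M2+M3 (architect helper144), node M-B (owner helper199).
`t`-expansions versus functions on the unit disc given by a power series.
-/
import Fermat.Agent.S24.B.Main
import Fermat.Agent.Lib.JExpansion

set_option autoImplicit false

namespace Fermat.Agent.GAL.M

open UpperHalfPlane Filter Topology
open Fermat.Agent.S24 Fermat.Agent.S24.B Fermat.Agent.Lib.JExpansion
open scoped MatrixGroups Real Manifold

/-- M-B1. -/
theorem exists_disc_fun {N : ℕ} [NeZero N] {c : ℍ → ℂ} {s : LaurentSeries Kbar}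
    (hc : HasTExp N c s) (hs : s ≠ 0) :
    ∃ (u : PowerSeries Kbar) (U : ℂ → ℂ), PowerSeries.constantCoeff u ≠ 0 ∧
      (∀ q : ℂ, ‖q‖ < 1 → Ev q (PowerSeries.map iota u) (U q)) ∧
      ∀ τ : ℍ, c τ = Function.Periodic.qParam N τ ^ s.order * U (Function.Periodic.qParam N τ) := by
  have hN : (0 : ℝ) < (N : ℝ) := by exact_mod_cast Nat.pos_of_ne_zero (NeZero.ne N)
  have key : ∀ τ : ℍ,
      HasSum (fun k : ℕ => iota (s.coeff (s.order + k)) * Function.Periodic.qParam N τ ^ k)
        ((Function.Periodic.qParam N τ) ^ (-s.order) * c τ) := by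
    intro τ
    have hq0 : Function.Periodic.qParam N τ ≠ 0 := Complex.exp_ne_zero _
    have h1 := (Function.Injective.hasSum_iff
      (f := fun n : ℤ => iota (s.coeff n) * Function.Periodic.qParam N τ ^ n)
      (g := fun k : ℕ => s.order + (k : ℤ)) (fun a b hab => by simpa using hab) (by
        intro x hx
        have hlt : x < s.order := by
          by_contra hx0
          exact hx ⟨(x - s.order).toNat, by
            simp only
            rw [Int.toNat_of_nonneg (by omega)]
            ring⟩
        simp [HahnSeries.coeff_eq_zero_of_lt_order hlt])).mpr (hc τ)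
    have h2 := h1.mul_left (Function.Periodic.qParam N τ ^ (-s.order))
    refine (congrArg (fun F : ℕ → ℂ => HasSum F _) (funext fun k => ?_)).mpr h2
    simp only [Function.comp_apply]
    rw [zpow_add₀ hq0, zpow_neg, zpow_natCast]
    field_simp
  refine ⟨PowerSeries.mk fun k => s.coeff (s.order + k),
    fun q => ∑' k : ℕ, iota (s.coeff (s.order + k)) * q ^ k, ?_, ?_, ?_⟩
  · rw [← PowerSeries.coeff_zero_eq_constantCoeff_apply, PowerSeries.coeff_mk]
    simpa using (HahnSeries.coeff_order_eq_zero (x := s)).not.mpr hs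
  · intro q hq
    have hsum : Summable fun k : ℕ => iota (s.coeff (s.order + k)) * q ^ k := by
      rcases eq_or_ne q 0 with rfl | hq0
      · exact (hasSum_single 0 (fun k hk => by simp [hk])).summable
      · obtain ⟨τ, rfl⟩ := exists_qParam_eq hN hq hq0
        exact (key τ).summable
    unfold Ev
    simp only [PowerSeries.coeff_map, PowerSeries.coeff_mk]
    exact hsum.hasSum
  · intro τ
    have hq0 : Function.Periodic.qParam N τ ≠ 0 := Complex.exp_ne_zero _
    simp only
    rw [(key τ).tsum_eq, ← mul_assoc, ← zpow_add₀ hq0, add_neg_cancel, zpow_zero, one_mul]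

/-- M-B2. -/
theorem hasTExp_of_ev {N : ℕ} [NeZero N] {R : ℂ → ℂ} {r : PowerSeries Kbar}
    (h : ∀ q : ℂ, ‖q‖ < 1 → Ev q (PowerSeries.map iota r) (R q)) :
    HasTExp N (fun τ => R (Function.Periodic.qParam N τ)) (HahnSeries.ofPowerSeries ℤ Kbar r) := by
  have hN : (0 : ℝ) < (N : ℝ) := by exact_mod_cast Nat.pos_of_ne_zero (NeZero.ne N)
  intro τ
  have hq : ‖Function.Periodic.qParam N τ‖ < 1 := UpperHalfPlane.norm_qParam_lt_one N τ
  have h1 := h _ hq
  unfold Ev at h1
  refine (Function.Injective.hasSum_iff
    (f := fun n : ℤ => iota ((HahnSeries.ofPowerSeries ℤ Kbar r).coeff n) *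
      Function.Periodic.qParam N τ ^ n)
    (g := (Nat.cast : ℕ → ℤ)) Nat.cast_injective (by
      intro x hx
      have hx0 : x < 0 := by
        by_contra hx0
        exact hx ⟨x.toNat, by simp [Int.toNat_of_nonneg (not_lt.mp hx0)]⟩
      have : (HahnSeries.ofPowerSeries ℤ Kbar r).coeff x = 0 := by
        rw [HahnSeries.ofPowerSeries_apply]
        apply HahnSeries.embDomain_of_notMem_range
        rintro ⟨k, hk⟩
        simp at hk
        omega
      simp [this])).mp ?_
  refine (congrArg (fun F : ℕ → ℂ => HasSum F _) (funext fun k => ?_)).mpr h1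
  simp only [Function.comp_apply, PowerSeries.coeff_map, zpow_natCast]
  rw [HahnSeries.ofPowerSeries_apply_coeff]

end Fermat.Agent.GAL.M
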