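import Fermat.Agent.Lib.HolRoot

/-!
# Cluster GAL, block M, node M-D: holomorphic `n`-th roots on the open unit ball.
-/

set_option autoImplicit false

namespace Fermat.Agent.GAL.M

/-- M-D. -/
theorem exists_root_unit_ball {n : ℕ} (hn : n ≠ 0) {U : ℂ → ℂ}
    (hU : DifferentiableOn ℂ U (Metric.ball 0 1))
    (hord : ∀ z ∈ Metric.ball (0 : ℂ) 1, ∃ m : ℕ, analyticOrderAt U z = ((n * m : ℕ) : ℕ∞)) :
    ∃ R : ℂ → ℂ, DifferentiableOn ℂ R (Metric.ball 0 1) ∧
      ∀ z ∈ Metric.ball (0 : ℂ) 1, R z ^ n = U z := by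
  have hR : ∀ k : ℕ, (0 : ℝ) < (k : ℝ) + 2 := fun k => by positivity
  refine Fermat.Agent.Lib.HolRoot.exists_root_of_exhaustion hn
    (hU.analyticOnNhd Metric.isOpen_ball) hord
    (fun _ => 0) (fun k => 1 - 1 / ((k : ℝ) + 2)) ?_ ?_ ?_ ?_
  · norm_num
  · intro k
    apply Metric.closedBall_subset_ball
    have : 0 < 1 / ((k : ℝ) + 2) := by have := hR k; positivity
    linarith
  · intro k
    apply Metric.ball_subset_ball
    have h5 : 1 / ((((k + 1 : ℕ) : ℝ)) + 2) ≤ 1 / ((k : ℝ) + 2) := by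
      apply one_div_le_one_div_of_le (hR k)
      push_cast
      linarith
    linarith
  · intro z hz
    rw [Metric.mem_ball, dist_zero_right] at hz
    obtain ⟨k, hk⟩ := exists_nat_gt (1 / (1 - ‖z‖))
    refine ⟨k, ?_⟩
    rw [Metric.mem_ball, dist_zero_right]
    have h1 : 0 < 1 - ‖z‖ := by linarith
    have h2 : 1 / ((k : ℝ) + 2) < 1 - ‖z‖ := by
      rw [div_lt_iff₀ (hR k)]
      rw [div_lt_iff₀ h1] at hk
      nlinarith
    linarith

end Fermat.Agent.GAL.M
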