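/-
Cluster GAL, block M, node M-C: if `f ^ n = q ^ M * U(q)` on the upper half plane with `f`
holomorphic and `U` holomorphic on the unit disc with `U 0 ≠ 0`, then all the orders of vanishing
of `U` on the unit disc are divisible by `n`.
-/
import Mathlib

set_option autoImplicit false

namespace Fermat.Agent.GAL.M

open UpperHalfPlane Filter Topology
open scoped MatrixGroups Real Manifold

/-- The derivative of the `q`-parameter. -/
theorem hasDerivAt_qParam_aux (h : ℝ) (z : ℂ) :
    HasDerivAt (Function.Periodic.qParam h)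
      (Function.Periodic.qParam h z * (2 * π * Complex.I / h)) z := by
  have := (((hasDerivAt_id z).const_mul (2 * π * Complex.I)).div_const (h : ℂ)).cexp
  simpa only [id_eq, mul_one] using! this

theorem deriv_qParam_ne_zero_aux {h : ℝ} (hh : h ≠ 0) (z : ℂ) :
    deriv (Function.Periodic.qParam h) z ≠ 0 := by
  rw [(hasDerivAt_qParam_aux h z).deriv]
  exact mul_ne_zero (Function.Periodic.qParam_ne_zero z)
    (div_ne_zero Complex.two_pi_I_ne_zero (mod_cast hh))

/-- A holomorphic function on the unit disc which does not vanish at `0` has finite order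
everywhere on the disc. -/
theorem analyticOrderAt_ne_top_of_ball {U : ℂ → ℂ}
    (hU : DifferentiableOn ℂ U (Metric.ball 0 1)) (hU0 : U 0 ≠ 0) {z : ℂ}
    (hz : z ∈ Metric.ball (0 : ℂ) 1) : analyticOrderAt U z ≠ ⊤ := by
  intro htop
  have hUa : AnalyticOnNhd ℂ U (Metric.ball 0 1) := hU.analyticOnNhd Metric.isOpen_ball
  have hpre : IsPreconnected (Metric.ball (0 : ℂ) 1) := (convex_ball 0 1).isPreconnected
  have h0 := hUa.eqOn_zero_of_preconnected_of_eventuallyEq_zero hpre hz
    (analyticOrderAt_eq_top.mp htop)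
  exact hU0 (h0 (Metric.mem_ball_self one_pos))

/-- M-C. -/
theorem order_disc_fun {N n : ℕ} [NeZero N] (hn : 0 < n) {f : ℍ → ℂ} (hf : MDiff f) {U : ℂ → ℂ}
    (hU : DifferentiableOn ℂ U (Metric.ball 0 1)) (hU0 : U 0 ≠ 0) (M : ℤ)
    (h : ∀ τ : ℍ, f τ ^ n =
      Function.Periodic.qParam N τ ^ M * U (Function.Periodic.qParam N τ)) :
    ∀ z ∈ Metric.ball (0 : ℂ) 1, ∃ m : ℕ, analyticOrderAt U z = ((n * m : ℕ) : ℕ∞) := by
  intro z hz
  have hUa : AnalyticOnNhd ℂ U (Metric.ball 0 1) := hU.analyticOnNhd Metric.isOpen_ball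
  have hN : (N : ℝ) ≠ 0 := by exact_mod_cast NeZero.ne N
  have hNpos : (0 : ℝ) < N := by exact_mod_cast Nat.pos_of_ne_zero (NeZero.ne N)
  by_cases hz0 : z = 0
  · subst hz0
    exact ⟨0, by simpa using (hUa 0 hz).analyticOrderAt_eq_zero.mpr hU0⟩
  -- a preimage of `z` in the upper half plane
  set τ0 : ℂ := Function.Periodic.invQParam N z with hτ0
  have hq0 : Function.Periodic.qParam N τ0 = z := Function.Periodic.qParam_right_inv hN hz0
  have hznorm : ‖z‖ < 1 := by simpa using hz
  have him : 0 < τ0.im := by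
    rw [hτ0, Function.Periodic.im_invQParam]
    have hlog : Real.log ‖z‖ < 0 := Real.log_neg (norm_pos_iff.mpr hz0) hznorm
    have hc : -(N : ℝ) / (2 * π) < 0 := by
      apply div_neg_of_neg_of_pos (by linarith) (by positivity)
    exact mul_pos_of_neg_of_neg hc hlog
  -- the function `F = f ∘ ofComplex` is analytic at `τ0`
  have hFa : AnalyticAt ℂ (f ∘ ofComplex) τ0 :=
    ((UpperHalfPlane.mdifferentiable_iff.mp hf).analyticOnNhd isOpen_upperHalfPlaneSet) τ0 him
  have hqa : AnalyticAt ℂ (Function.Periodic.qParam N) τ0 :=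
    (Function.Periodic.differentiable_qParam.analyticAt τ0)
  have hqMa : AnalyticAt ℂ (fun w => Function.Periodic.qParam N w ^ M) τ0 :=
    hqa.zpow (Function.Periodic.qParam_ne_zero τ0)
  have hUqa : AnalyticAt ℂ (U ∘ Function.Periodic.qParam N) τ0 := by
    apply AnalyticAt.comp _ hqa
    rw [hq0]
    exact hUa z hz
  have hev : ((f ∘ ofComplex) ^ n) =ᶠ[𝓝 τ0]
      ((fun w => Function.Periodic.qParam N w ^ M) * (U ∘ Function.Periodic.qParam N)) := by
    filter_upwards [isOpen_upperHalfPlaneSet.mem_nhds him] with w hw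
    have hw' : 0 < w.im := hw
    have := h ⟨w, hw'⟩
    simpa [ofComplex_apply_of_im_pos hw'] using this
  have hord : n • analyticOrderAt (f ∘ ofComplex) τ0 = analyticOrderAt U z := by
    rw [← analyticOrderAt_pow hFa, analyticOrderAt_congr hev, analyticOrderAt_mul hqMa hUqa,
      analyticOrderAt_comp_of_deriv_ne_zero hqa (deriv_qParam_ne_zero_aux hN τ0), hq0,
      hqMa.analyticOrderAt_eq_zero.mpr (zpow_ne_zero _ (Function.Periodic.qParam_ne_zero τ0)),
      zero_add]
  have hfin : analyticOrderAt U z ≠ ⊤ := analyticOrderAt_ne_top_of_ball hU hU0 hz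
  have hFfin : analyticOrderAt (f ∘ ofComplex) τ0 ≠ ⊤ := by
    intro htop
    rw [htop] at hord
    apply hfin
    rw [← hord]
    simp [hn.ne']
  obtain ⟨m, hm⟩ := ENat.ne_top_iff_exists.mp hFfin
  refine ⟨m, ?_⟩
  rw [← hord, ← hm]
  simp

end Fermat.Agent.GAL.M
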