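/-
Cluster GAL, block M, task M-A (helper227): an `n`-th root (in `C⟦X⟧`) of a power series with
coefficients in an algebraically closed subfield `K` of characteristic zero and nonzero constant
coefficient has its coefficients in `K`.
-/
import Mathlib

set_option autoImplicit false

namespace Fermat.Agent.GAL.M

open PowerSeries

/-- an element of `C` with an `n`-th power in the algebraically closed subfield is in it. -/
theorem mem_fieldRange_of_pow_mem {K C : Type*} [Field K] [IsAlgClosed K] [Field C] (ι : K →+* C)
    {n : ℕ} (hn : 0 < n) (x : C) (a : K) (h : x ^ n = ι a) : x ∈ ι.fieldRange := by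
  let _ : Algebra K C := ι.toAlgebra
  have hint : IsIntegral K x := by
    refine ⟨Polynomial.X ^ n - Polynomial.C a, Polynomial.monic_X_pow_sub_C a hn.ne', ?_⟩
    rw [Polynomial.eval₂_sub, Polynomial.eval₂_pow, Polynomial.eval₂_X, Polynomial.eval₂_C, h]
    exact sub_self _
  have := hint.mem_range_algebraMap_of_minpoly_splits (K := K) (IsAlgClosed.splits _)
  obtain ⟨y, hy⟩ := this
  exact ⟨y, hy⟩

theorem exists_map_eq_of_pow_eq {K C : Type*} [Field K] [IsAlgClosed K] [CharZero K] [Field C]
    (ι : K →+* C) {n : ℕ} (hn : 0 < n) (r : PowerSeries C) (u : PowerSeries K)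
    (hu : PowerSeries.constantCoeff u ≠ 0) (h : r ^ n = PowerSeries.map ι u) :
    ∃ r' : PowerSeries K, PowerSeries.map ι r' = r := by
  have : CharZero C := charZero_of_injective_ringHom ι.injective
  set S : Subfield C := ι.fieldRange with hS
  have hιS : ∀ a : K, ι a ∈ S := fun a => ⟨a, rfl⟩
  -- the differential equation
  have hde : (n : PowerSeries C) * PowerSeries.map ι u * d⁄dX C r
      = r * d⁄dX C (PowerSeries.map ι u) := by
    rw [← h, derivative_pow]
    obtain ⟨m, rfl⟩ : ∃ m, n = m + 1 := ⟨n - 1, by omega⟩
    rw [Nat.add_sub_cancel, pow_succ]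
    ring
  have key : ∀ k, PowerSeries.coeff k r ∈ S := by
    intro k
    induction k using Nat.strong_induction_on with
    | _ k ih =>
      cases k with
      | zero =>
        have h0 := congrArg (PowerSeries.constantCoeff (R := C)) h
        rw [map_pow, ← coeff_zero_eq_constantCoeff_apply, ← coeff_zero_eq_constantCoeff_apply,
          coeff_map] at h0
        exact mem_fieldRange_of_pow_mem ι hn _ _ h0
      | succ k =>
        have hk := congrArg (PowerSeries.coeff k) hde
        rw [mul_assoc, ← nsmul_eq_mul, map_nsmul, coeff_mul, coeff_mul,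
          Finset.Nat.sum_antidiagonal_eq_sum_range_succ_mk,
          Finset.Nat.sum_antidiagonal_eq_sum_range_succ_mk, Finset.sum_range_succ'] at hk
        simp only [coeff_derivative, coeff_map, Nat.sub_zero] at hk
        -- the right-hand side is in `S`
        have hR : ∑ i ∈ Finset.range (k + 1),
            coeff i r * (ι (coeff (k - i + 1) u) * ((k - i : ℕ) + 1 : C)) ∈ S := by
          refine Subfield.sum_mem _ fun i hi => ?_
          refine mul_mem (ih i (by have := Finset.mem_range.mp hi; omega)) (mul_mem (hιS _) ?_)
          exact add_mem (natCast_mem S _) (one_mem S)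
        have hL : ∑ i ∈ Finset.range k,
            ι (coeff (i + 1) u) * (coeff (k - (i + 1) + 1) r * ((k - (i + 1) : ℕ) + 1 : C)) ∈ S := by
          refine Subfield.sum_mem _ fun i hi => ?_
          refine mul_mem (hιS _) (mul_mem (ih _ (by have := Finset.mem_range.mp hi; omega)) ?_)
          exact add_mem (natCast_mem S _) (one_mem S)
        rw [← hk] at hR
        rw [nsmul_eq_mul] at hR
        have hn0 : (n : C) ≠ 0 := Nat.cast_ne_zero.mpr hn.ne'
        have h1 : (∑ i ∈ Finset.range k,
            ι (coeff (i + 1) u) * (coeff (k - (i + 1) + 1) r * ((k - (i + 1) : ℕ) + 1 : C)))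
            + ι (coeff 0 u) * (coeff (k + 1) r * ((k : ℕ) + 1 : C)) ∈ S := by
          have := mul_mem (inv_mem (natCast_mem S n)) hR
          rwa [inv_mul_cancel_left₀ hn0] at this
        have h2 : ι (coeff 0 u) * (coeff (k + 1) r * ((k : ℕ) + 1 : C)) ∈ S := by
          have := sub_mem h1 hL
          rwa [add_sub_cancel_left] at this
        have hu0 : ι (coeff 0 u) ≠ 0 := by
          rw [coeff_zero_eq_constantCoeff_apply]
          exact (map_ne_zero ι).mpr hu
        have hk0 : ((k : ℕ) + 1 : C) ≠ 0 := Nat.cast_add_one_ne_zero k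
        have h3 : coeff (k + 1) r * ((k : ℕ) + 1 : C) ∈ S := by
          have := mul_mem (inv_mem (hιS (coeff 0 u))) h2
          rwa [inv_mul_cancel_left₀ hu0] at this
        have := mul_mem h3 (inv_mem (add_mem (natCast_mem S k) (one_mem S)))
        rwa [mul_inv_cancel_right₀ hk0] at this
  choose f hf using key
  refine ⟨PowerSeries.mk f, ?_⟩
  ext k
  rw [coeff_map, coeff_mk, hf]

end Fermat.Agent.GAL.M
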