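/-
Cluster GAL, block M2+M3 (owner helper144).
A holomorphic `n`-th root of a function with a `t`-expansion over `ℚ̄` of order divisible by `n`
has a `t`-expansion over `ℚ̄`.
-/
import Fermat.Agent.GAL.Mult.Adm
import Fermat.Agent.GAL.M.SeriesRoot
import Fermat.Agent.GAL.M.DiscFun
import Fermat.Agent.GAL.M.DiscOrder
import Fermat.Agent.GAL.M.BallRoot

set_option autoImplicit false

namespace Fermat.Agent.GAL.M

open UpperHalfPlane Filter Topology
open Fermat.Agent.S24 Fermat.Agent.S24.B Fermat.Agent.Lib.JExpansion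
open scoped MatrixGroups Real Manifold

/-- roots of unity of `ℂ` come from `ℚ̄`. -/
theorem exists_iota_eq_of_pow_eq_one {n : ℕ} (hn : 0 < n) {ζ : ℂ} (h : ζ ^ n = 1) :
    ∃ z : Kbar, z ^ n = 1 ∧ iota z = ζ := by
  have : NeZero n := ⟨hn.ne'⟩
  have h1 : IsPrimitiveRoot ((zetaK n : Kbarˣ) : Kbar) n :=
    IsPrimitiveRoot.coe_units_iff.2 (isPrimitiveRoot_zetaK n)
  have h2 : IsPrimitiveRoot (iota (zetaK n : Kbar)) n := h1.map_of_injective iota.injective
  obtain ⟨i, -, hi⟩ := h2.eq_pow_of_pow_eq_one h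
  refine ⟨(zetaK n : Kbar) ^ i, ?_, by rw [map_pow, hi]⟩
  rw [← pow_mul, mul_comm, pow_mul, h1.pow_eq_one, one_pow]

theorem norm_qParam_lt_one' (N : ℕ) [NeZero N] (τ : ℍ) : ‖Function.Periodic.qParam N τ‖ < 1 := by
  rw [Function.Periodic.norm_qParam]
  rw [Real.exp_lt_one_iff]
  have hN : (0 : ℝ) < N := by exact_mod_cast Nat.pos_of_ne_zero (NeZero.ne N)
  have := τ.im_pos
  have h2 : 0 < 2 * Real.pi * τ.im / N := by positivity
  have h3 : -2 * Real.pi * (τ : ℂ).im / N = -(2 * Real.pi * τ.im / N) := by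
    rw [UpperHalfPlane.coe_im]; ring
  rw [h3]
  linarith

theorem mdiff_disc_fun {N : ℕ} [NeZero N] {R : ℂ → ℂ}
    (hR : DifferentiableOn ℂ R (Metric.ball 0 1)) (m : ℤ) :
    MDiff (fun τ : ℍ => Function.Periodic.qParam N τ ^ m * R (Function.Periodic.qParam N τ)) := by
  rw [UpperHalfPlane.mdifferentiable_iff]
  have key : DifferentiableOn ℂ
      (fun z : ℂ => Function.Periodic.qParam N z ^ m * R (Function.Periodic.qParam N z))
      {z : ℂ | 0 < z.im} := by
    intro z hz
    have hq : DifferentiableAt ℂ (Function.Periodic.qParam N) z :=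
      Function.Periodic.differentiable_qParam.differentiableAt
    have hq0 : Function.Periodic.qParam N z ≠ 0 := Function.Periodic.qParam_ne_zero z
    have hqb : Function.Periodic.qParam N z ∈ Metric.ball (0 : ℂ) 1 := by
      have := norm_qParam_lt_one' N ⟨z, hz⟩
      simpa using this
    have hRz : DifferentiableAt ℂ R (Function.Periodic.qParam N z) :=
      hR.differentiableAt (Metric.isOpen_ball.mem_nhds hqb)
    exact ((hq.zpow (Or.inl hq0)).mul (hRz.comp z hq)).differentiableWithinAt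
  refine key.congr ?_
  intro z hz
  show Function.Periodic.qParam N (ofComplex z : ℂ) ^ m * R (Function.Periodic.qParam N
    (ofComplex z : ℂ)) = _
  rw [UpperHalfPlane.ofComplex_apply_of_im_pos hz]

theorem exists_hasTExp_of_pow {N n : ℕ} [NeZero N] (hn : 0 < n) {f c : ℍ → ℂ} (hf : MDiff f)
    (hfc : ∀ τ, f τ ^ n = c τ) {s : LaurentSeries Kbar} (hc : HasTExp N c s) (hs : s ≠ 0)
    (hord : (n : ℤ) ∣ s.order) : ∃ S : LaurentSeries Kbar, HasTExp N f S := by
  obtain ⟨u, U, hu0, hU, hcU⟩ := exists_disc_fun hc hs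
  obtain ⟨m, hm⟩ := hord
  have hUd : DifferentiableOn ℂ U (Metric.ball 0 1) := by
    have := (hasFPowerSeriesOnBall_of_ev hU).differentiableOn
    rwa [← ENNReal.coe_one, Metric.eball_coe, NNReal.coe_one] at this
  have hU0 : U 0 ≠ 0 := by
    have h1 : Ev 0 (PowerSeries.map iota u) (U 0) := hU 0 (by simp)
    have h2 : Ev 0 (PowerSeries.map iota u) (iota (PowerSeries.constantCoeff u)) := by
      unfold Ev
      convert hasSum_single (f := fun k : ℕ => PowerSeries.coeff k (PowerSeries.map iota u) *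
        (0 : ℂ) ^ k) 0 ?_ using 1
      · simp
      · intro k hk
        simp [hk]
    rw [h1.unique h2]
    exact fun h => hu0 (iota.injective (by rw [h, map_zero]))
  obtain ⟨R, hR, hRn⟩ := exists_root_unit_ball hn.ne' hUd
    (order_disc_fun hn hf hUd hU0 s.order (fun τ => (hfc τ).trans (hcU τ)))
  have hr : ∀ q : ℂ, ‖q‖ < 1 → Ev q (taylorPS R) (R q) := fun q hq => ev_taylorPS hR hq
  have hrn : taylorPS R ^ n = PowerSeries.map iota u :=
    eq_of_forall_ev (f := U) (fun q hq => by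
      have := (hr q hq).pow n
      rwa [hRn q (by simpa using hq)] at this) hU
  obtain ⟨r', hr'⟩ := exists_map_eq_of_pow_eq iota hn (taylorPS R) u hu0 hrn
  have h1 : HasTExp N (fun τ => R (Function.Periodic.qParam N τ))
      (HahnSeries.ofPowerSeries ℤ Kbar r') := hasTExp_of_ev (by rw [hr']; exact hr)
  have h2 := (HasTExp.single (N := N) m 1).mul h1
  have hf₁ := mdiff_disc_fun (N := N) hR m
  obtain ⟨ζ, hζ, hfζ⟩ := Fermat.Agent.Lib.HolRoot.exists_root_of_unity hn.ne' hf hf₁ (by
    intro τ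
    have hq0 : Function.Periodic.qParam N τ ≠ 0 := Function.Periodic.qParam_ne_zero _
    rw [hfc, hcU, mul_pow, hRn _ (by simpa using norm_qParam_lt_one' N τ), hm, mul_comm (n : ℤ),
      zpow_mul, zpow_natCast])
  obtain ⟨z, -, rfl⟩ := exists_iota_eq_of_pow_eq_one hn hζ
  have h3 := (HasTExp.const (N := N) z).mul h2
  have h4 : f = (fun _ => iota z) * ((fun τ : ℍ => iota 1 * Function.Periodic.qParam N τ ^ m) *
      fun τ : ℍ => R (Function.Periodic.qParam N τ)) := by
    funext τ
    rw [hfζ]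
    simp
  rw [← h4] at h3
  exact ⟨_, h3⟩
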