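/-
Cluster GAL, block M2+M3 (owner helper144).  Abstract valuation lemmas.

A ring homomorphism `φ : F → C((X))` from a function field, sending constants to constants, induces
a multiple of the order function of a place.  Consequences for elements whose divisor is divisible
by `n`, and for eigenvalues of automorphisms acting on expansions by a twist.
-/
import Fermat.Agent.S24.CL.PlaceOfVal
import Fermat.Agent.S24.B.Laurent

set_option autoImplicit false

namespace Fermat.Agent.GAL.M

open AlgebraicCurve Fermat.Agent.S24 Fermat.Agent.S24.B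
open scoped WithZero

variable {K F C : Type*} [Field K] [Field F] [Algebra K F] [Field C]

theorem order_eq_zero_or_exists_place (φ : F →+* LaurentSeries C)
    (hφK : ∀ a : K, ∃ c : C, φ (algebraMap K F a) = HahnSeries.C c) :
    (∀ f : F, (φ f).order = 0) ∨
      ∃ (v : Place K F) (m : ℕ), ∀ f : F, f ≠ 0 → (φ f).order = (m : ℤ) * v.ord f := by
  have hne : ∀ f : F, f ≠ 0 → φ f ≠ 0 := fun f hf h => hf (φ.injective (by rw [h, map_zero]))
  set W : Valuation F ℤᵐ⁰ := (lval C).comap φ with hW
  have hWf : ∀ f : F, f ≠ 0 → W f = WithZero.exp (-(φ f).order) := by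
    intro f hf
    rw [hW, Valuation.comap_apply, lval_of_ne_zero (hne f hf)]
  have hK : ∀ a : K, a ≠ 0 → W (algebraMap K F a) = 1 := by
    intro a ha
    have ha' : algebraMap K F a ≠ 0 := by
      intro h
      exact ha ((algebraMap K F).injective (by rw [h, map_zero]))
    obtain ⟨c, hc⟩ := hφK a
    rw [hWf _ ha', hc, HahnSeries.order_C]
    simp
  by_cases hnt : ∃ f, f ≠ 0 ∧ W f < 1
  · right
    obtain ⟨v, m, -, h⟩ := CL.exists_place_of_valuation W hK hnt
    refine ⟨v, m, fun f hf => ?_⟩
    have h1 := h f hf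
    rw [hWf f hf, WithZero.exp_inj] at h1
    omega
  · left
    push Not at hnt
    intro f
    rcases eq_or_ne f 0 with rfl | hf
    · simp
    have h1 := hnt f hf
    have h2 := hnt f⁻¹ (inv_ne_zero hf)
    rw [hWf f hf, ← WithZero.exp_zero, WithZero.exp_le_exp] at h1
    rw [hWf _ (inv_ne_zero hf), ← WithZero.exp_zero, WithZero.exp_le_exp] at h2
    have h3 : (φ f).order + (φ f⁻¹).order = 0 := by
      rw [← HahnSeries.order_mul (hne f hf) (hne _ (inv_ne_zero hf)), ← map_mul,
        mul_inv_cancel₀ hf, map_one, HahnSeries.order_one]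
    omega

/-- If all expansions of elements of `F` are invariant under the twist by `μ` and the divisor of `u`
is divisible by `n`, then the order of the expansion of `u` is `n * k` with `μ ^ k = 1`. -/
theorem exists_order_eq_mul (φ : F →+* LaurentSeries C)
    (hφK : ∀ a : K, ∃ c : C, φ (algebraMap K F a) = HahnSeries.C c)
    (μ : Cˣ) (hinv : ∀ x : F, twist μ (φ x) = φ x) {n : ℕ} {u : F}
    (hu : ∀ v : Place K F, (n : ℤ) ∣ v.ord u) :
    ∃ k : ℤ, (φ u).order = (n : ℤ) * k ∧ μ ^ k = 1 := by
  have hne : ∀ f : F, f ≠ 0 → φ f ≠ 0 := fun f hf h => hf (φ.injective (by rw [h, map_zero]))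
  have hμ : ∀ f : F, f ≠ 0 → μ ^ (φ f).order = 1 := by
    intro f hf
    have hcoef : (φ f).coeff (φ f).order ≠ 0 :=
      fun h => hne f hf (HahnSeries.coeff_order_eq_zero.1 h)
    have h2 : ((μ ^ (φ f).order : Cˣ) : C) * (φ f).coeff (φ f).order =
        (φ f).coeff (φ f).order := by
      rw [← twist_coeff, hinv]
    exact Units.ext (mul_right_cancel₀ hcoef (h2.trans (one_mul _).symm))
  rcases order_eq_zero_or_exists_place (K := K) φ hφK with h | ⟨v, m, h⟩
  · exact ⟨0, by rw [h, mul_zero], zpow_zero _⟩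
  · rcases eq_or_ne u 0 with rfl | hu0
    · exact ⟨0, by simp, zpow_zero _⟩
    obtain ⟨π, hπ⟩ := FF.exists_ord_eq_one v
    have hπ0 : π ≠ 0 := by
      rintro rfl
      simp at hπ
    have h1 := hμ π hπ0
    rw [h π hπ0, hπ, mul_one] at h1
    obtain ⟨k, hk⟩ := hu v
    refine ⟨m * k, by rw [h u hu0, hk]; ring, ?_⟩
    rw [zpow_mul, h1, one_zpow]

/-- The eigenvalue of an automorphism acting on expansions by a twist. -/
theorem eigenvalue_eq_one {M : Type*} [Field M] (φ : M →+* LaurentSeries C) (g : M →+* M) (μ : Cˣ)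
    (hg : ∀ x, φ (g x) = twist μ (φ x)) {n : ℕ} (hn : 0 < n) {h c : M} (h0 : h ≠ 0)
    (hc : ∃ c' : C, φ c = HahnSeries.C c') (hgh : g h = c * h) {k : ℤ}
    (hk : (φ (h ^ n)).order = (n : ℤ) * k) (hμ : μ ^ k = 1) : c = 1 := by
  have hφh : φ h ≠ 0 := fun h' => h0 (φ.injective (by rw [h', map_zero]))
  have hord : (φ h).order = k := by
    rw [map_pow, HahnSeries.order_pow, nsmul_eq_mul] at hk
    exact mul_left_cancel₀ (by exact_mod_cast hn.ne') hk
  have hcoef : (φ h).coeff k ≠ 0 := by
    rw [← hord]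
    exact fun h' => hφh (HahnSeries.coeff_order_eq_zero.1 h')
  obtain ⟨c', hc'⟩ := hc
  have h1 : twist μ (φ h) = HahnSeries.C c' * φ h := by rw [← hg, hgh, map_mul, hc']
  have h2 := congrArg (fun s : LaurentSeries C => s.coeff k) h1
  simp only [twist_coeff, hμ, Units.val_one, one_mul, HahnSeries.C_mul_eq_smul,
    HahnSeries.coeff_smul, smul_eq_mul] at h2
  have h3 : c' = 1 := (mul_right_cancel₀ hcoef (h2.symm.trans (one_mul _).symm))
  apply φ.injective
  rw [hc', h3, map_one, map_one]

end Fermat.Agent.GAL.M
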