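/-
Cluster GAL, block M2+M3 (owner helper144).
A Kummer unit `u` of `FN N` (divisor divisible by `n`) has an `n`-th root in the field `LL N` of
admissible modular functions.
-/
import Fermat.Agent.GAL.M.TRoot
import Fermat.Agent.GAL.M.Val
import Fermat.Agent.GAL.E.Defs

set_option autoImplicit false

namespace Fermat.Agent.GAL.M

open UpperHalfPlane Filter Topology AlgebraicCurve
open Fermat.Agent.S24 Fermat.Agent.S24.B Fermat.Agent.GAL.Mult Fermat.Agent.GAL.E
open scoped MatrixGroups Real Manifold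

variable {N : ℕ} [NeZero N]

/-- The order of any expansion of `a * b ^ (n - 1)` is divisible by `n` when `a / b` is a Kummer
unit. -/
theorem dvd_order_numerator {C : Type*} [Field C] (φ : LN N →+* LaurentSeries C)
    (hφK : ∀ a : Kbar, ∃ c : C, φ (algebraMap Kbar (LN N) a) = HahnSeries.C c)
    {n : ℕ} (hn : 0 < n) {u : FN N} (hu : IsKum N n u) {a b : AL N} (hb : b ≠ 0)
    (hab : Psi N u = algebraMap (AL N) (LN N) a / algebraMap (AL N) (LN N) b) :
    (n : ℤ) ∣ (φ (algebraMap (AL N) (LN N) (a * b ^ (n - 1)))).order := by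
  have hb' : algebraMap (AL N) (LN N) b ≠ 0 := by
    intro h
    exact hb (IsFractionRing.injective (AL N) (LN N) (by rw [h, map_zero]))
  have h1 : algebraMap (AL N) (LN N) (a * b ^ (n - 1)) =
      Psi N u * algebraMap (AL N) (LN N) b ^ n := by
    rw [hab, map_mul, map_pow]
    obtain ⟨k, rfl⟩ : ∃ k, n = k + 1 := ⟨n - 1, by omega⟩
    rw [Nat.add_sub_cancel, pow_succ]
    field_simp
  rw [h1, map_mul, map_pow]
  rcases eq_or_ne u 0 with rfl | hu0
  · simp
  have hne : ∀ x : LN N, x ≠ 0 → φ x ≠ 0 := fun x hx h => hx (φ.injective (by rw [h, map_zero]))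
  have hΨ : Psi N u ≠ 0 := fun h => hu0 ((Psi N).toRingHom.injective (by
    rw [AlgHom.toRingHom_eq_coe, RingHom.coe_coe, h, map_zero]))
  rw [HahnSeries.order_mul (hne _ hΨ) (pow_ne_zero _ (hne _ hb')), HahnSeries.order_pow,
    nsmul_eq_mul]
  obtain ⟨k, hk, -⟩ := exists_order_eq_mul (K := Kbar) (φ.comp (Psi N).toRingHom) (by
    intro a
    obtain ⟨c, hc⟩ := hφK a
    refine ⟨c, ?_⟩
    rw [RingHom.comp_apply, AlgHom.toRingHom_eq_coe, RingHom.coe_coe, AlgHom.commutes, hc])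
    1 (fun x => twist_one _) hu
  rw [RingHom.comp_apply, AlgHom.toRingHom_eq_coe, RingHom.coe_coe] at hk
  rw [hk]
  exact dvd_add (dvd_mul_right _ _) (dvd_mul_right _ _)

/-- finiteness of the set of translates of a holomorphic root. -/
theorem finite_range_of_pow {n : ℕ} (hn : 0 < n) {h c : ℍ → ℂ} (hh : MDiff h)
    (hpow : ∀ τ, h τ ^ n = c τ)
    (hc : (Set.range fun γ : SL(2, ℤ) => fun τ : ℍ => c (γ • τ)).Finite) :
    (Set.range fun γ : SL(2, ℤ) => fun τ : ℍ => h (γ • τ)).Finite := by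
  classical
  have hZ : {ζ : ℂ | ζ ^ n = 1}.Finite := by
    refine (Polynomial.nthRootsFinset n (1 : ℂ)).finite_toSet.subset ?_
    intro ζ hζ
    exact (Polynomial.mem_nthRootsFinset hn _).2 hζ
  choose! sec hsec using fun (c' : ℍ → ℂ)
    (hc' : c' ∈ Set.range fun γ : SL(2, ℤ) => fun τ : ℍ => c (γ • τ)) => hc'
  refine (Set.Finite.image2 (fun (ζ : ℂ) (c' : ℍ → ℂ) => fun τ : ℍ => ζ * h (sec c' • τ))
    hZ hc).subset ?_
  rintro _ ⟨γ, rfl⟩
  have hmem : (fun τ : ℍ => c (γ • τ)) ∈ Set.range fun γ : SL(2, ℤ) => fun τ : ℍ => c (γ • τ) :=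
    ⟨γ, rfl⟩
  have h1 := hsec _ hmem
  obtain ⟨ζ, hζ, hζh⟩ := Fermat.Agent.Lib.HolRoot.exists_root_of_unity hn.ne'
    (mdiff_comp_smul hh (sl γ)) (mdiff_comp_smul hh (sl (sec fun τ : ℍ => c (γ • τ)))) (by
      intro τ
      rw [sl_smul, sl_smul, hpow, hpow]
      exact (congrFun h1 τ).symm)
  exact ⟨ζ, hζ, _, hmem, funext fun τ => (hζh τ).symm⟩

theorem exists_root {n : ℕ} (hn : 0 < n) {u : FN N} (hu0 : u ≠ 0) (hu : IsKum N n u) :
    ∃ h : LL N, h ^ n = PsiL N u := by
  obtain ⟨a, b, hb, hab⟩ := IsFractionRing.div_surjective (A := AL N) (Psi N u)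
  have hb0 : b ≠ 0 := nonZeroDivisors.ne_zero hb
  have hΨ : Psi N u ≠ 0 := fun h => hu0 ((Psi N).toRingHom.injective (by
    rw [AlgHom.toRingHom_eq_coe, RingHom.coe_coe, h, map_zero]))
  have ha0 : a ≠ 0 := by
    rintro rfl
    rw [map_zero, zero_div] at hab
    exact hΨ hab.symm
  set c : AL N := a * b ^ (n - 1) with hc
  have hc0 : c ≠ 0 := mul_ne_zero ha0 (pow_ne_zero _ hb0)
  -- orders in the upper half plane
  have hordW : ∀ τ₀ : ℍ, ∃ m : ℕ,
      analyticOrderAt (fun z : ℂ => c.1 (ofComplex z)) (τ₀ : ℂ) = ((n * m : ℕ) : ℕ∞) := by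
    intro τ₀
    have h1 : wexp N τ₀ c ≠ 0 := fun h => hc0 (wexp_injective τ₀ (by rw [h, map_zero]))
    obtain ⟨M, hM⟩ : ∃ M : ℕ, (wexp N τ₀ c).order = (M : ℕ∞) :=
      ⟨(wexp N τ₀ c).order.toNat, (ENat.natCast_toNat (PowerSeries.order_eq_top.not.2 h1)).symm⟩
    have h2 := dvd_order_numerator (wexpL N τ₀) (fun a => ⟨_, wexpL_algebraMap_Kbar τ₀ a⟩) hn hu
      hb0 hab.symm
    rw [wexpL_algebraMap, order_ofPowerSeries _ M hM, Int.natCast_dvd_natCast] at h2
    obtain ⟨m, rfl⟩ := h2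
    exact ⟨m, (order_wexp τ₀ c).symm.trans hM⟩
  obtain ⟨h₀, hh₀, hpow⟩ := Fermat.Agent.Lib.HolRoot.exists_root hn.ne' c.1
    (Stubs.mdiff_of_mem_AL c.2) hordW
  have hadm : IsAdm N h₀ :=
    { mdiff := hh₀
      texp := by
        intro γ
        have hcγ : HasTExp N (fun τ => c.1 (γ • τ)) (texp N (γ⁻¹ • c)) := by
          have := hasTExp_texp (γ⁻¹ • c)
          have h2 : (γ⁻¹ • c).1 = fun τ => c.1 (γ • τ) := by
            funext τ
            show c.1 ((γ⁻¹)⁻¹ • τ) = c.1 (γ • τ)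
            rw [inv_inv]
          rwa [h2] at this
        have hne : texp N (γ⁻¹ • c) ≠ 0 := by
          intro h
          have h3 : γ⁻¹ • c = 0 := texp_injective (by rw [h, map_zero])
          have h4 : γ • (γ⁻¹ • c) = γ • (0 : AL N) := by rw [h3]
          rw [smul_inv_smul, smul_zero] at h4
          exact hc0 h4
        have h2 := dvd_order_numerator
          ((texpL N).toRingHom.comp (MulSemiringAction.toRingHom SL(2, ℤ) (LN N) γ⁻¹)) (by
            intro a
            refine ⟨a, ?_⟩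
            rw [RingHom.comp_apply, MulSemiringAction.toRingHom_apply, smul_algebraMap_Kbar,
              AlgHom.toRingHom_eq_coe, RingHom.coe_coe, AlgHom.commutes,
              ModularCurve.algebraMap_laurentSeries_eq_single]
            rfl) hn hu hb0 hab.symm
        rw [RingHom.comp_apply, MulSemiringAction.toRingHom_apply, smul_algebraMap_AL,
          AlgHom.toRingHom_eq_coe, RingHom.coe_coe, texpL_algebraMap] at h2
        exact exists_hasTExp_of_pow hn (mdiff_comp_smul hh₀ (sl γ)) (fun τ => hpow (γ • τ)) hcγ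
          hne h2
      fin := finite_range_of_pow hn hh₀ hpow (isAdm_of_mem_AL c.2).fin }
  have hbL : algebraMap (AB N) (LL N) (alToAB N b) ≠ 0 := by
    intro h
    exact hb0 (alToAB_injective (IsFractionRing.injective (AB N) (LL N) (by
      rw [h, map_zero, map_zero])))
  refine ⟨algebraMap (AB N) (LL N) ⟨h₀, hadm⟩ / algebraMap (AB N) (LL N) (alToAB N b), ?_⟩
  have h1 : (⟨h₀, hadm⟩ : AB N) ^ n = alToAB N c := by
    apply Subtype.ext
    funext τ
    exact hpow τ
  rw [div_pow, ← map_pow, h1, PsiL_apply, ← hab, map_div₀, lnToLL_algebraMap, lnToLL_algebraMap,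
    hc, map_mul, map_mul, map_pow, map_pow]
  obtain ⟨k, rfl⟩ : ∃ k, n = k + 1 := ⟨n - 1, by omega⟩
  rw [Nat.add_sub_cancel, pow_succ]
  field_simp

end Fermat.Agent.GAL.M
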