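/-
Cluster GAL, block M2+M3 (owner helper144).
The multiplier character `chi u : Γ₀(N) →* μ_n(ℚ̄)` of a Kummer unit `u`:
if `h ^ n = u` in `LL N` then `γ • h = chi u γ * h`.
-/
import Fermat.Agent.GAL.M.Root

set_option autoImplicit false

namespace Fermat.Agent.GAL.M

open UpperHalfPlane Filter Topology AlgebraicCurve CongruenceSubgroup
open Fermat.Agent.S24 Fermat.Agent.S24.B Fermat.Agent.GAL.Mult Fermat.Agent.GAL.E
open scoped MatrixGroups Real Manifold

variable {N : ℕ} [NeZero N]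

/-! ### Equivariance of the embeddings -/

theorem lnToLL_smul (γ : SL(2, ℤ)) (x : LN N) : lnToLL N (γ • x) = γ • lnToLL N x := by
  have h : (lnToLL N).toRingHom.comp (MulSemiringAction.toRingHom SL(2, ℤ) (LN N) γ) =
      (MulSemiringAction.toRingHom SL(2, ℤ) (LL N) γ).comp (lnToLL N).toRingHom := by
    refine IsLocalization.ringHom_ext (nonZeroDivisors (AL N)) ?_
    refine RingHom.ext fun f => ?_
    show lnToLL N (γ • algebraMap (AL N) (LN N) f) = γ • lnToLL N (algebraMap (AL N) (LN N) f)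
    rw [smul_algebraMap_AL, lnToLL_algebraMap, lnToLL_algebraMap, smul_algebraMap_AB, alToAB_smul]
  exact RingHom.congr_fun h x

theorem embL_smul (γ : SL(2, ℤ)) (x : LL N) : embL N (γ • x) = sl γ • embL N x := by
  have h : (embL N).toRingHom.comp (MulSemiringAction.toRingHom SL(2, ℤ) (LL N) γ) =
      (MulSemiringAction.toRingHom GL(2, ℝ)⁺ MM (sl γ)).comp (embL N).toRingHom := by
    refine IsLocalization.ringHom_ext (nonZeroDivisors (AB N)) ?_
    refine RingHom.ext fun f => ?_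
    show embL N (γ • algebraMap (AB N) (LL N) f) = sl γ • embL N (algebraMap (AB N) (LL N) f)
    rw [smul_algebraMap_AB, embL_algebraMap, embL_algebraMap, smul_algebraMap_Hol, abToHol_smul]
  exact RingHom.congr_fun h x

theorem smul_PsiL_of_mem {γ : SL(2, ℤ)} (hγ : γ ∈ Gamma0 N) (x : FN N) :
    γ • PsiL N x = PsiL N x := by
  rw [PsiL_apply, ← lnToLL_smul, smul_Psi_of_mem_Gamma0 γ hγ]

theorem PsiL_ne_zero {x : FN N} (hx : x ≠ 0) : PsiL N x ≠ 0 := fun h =>
  hx ((PsiL N).toRingHom.injective (by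
    rw [AlgHom.toRingHom_eq_coe, RingHom.coe_coe, h, map_zero]))

/-! ### Roots of unity in `LL N` -/

theorem exists_algebraMap_eq_of_pow_eq_one {n : ℕ} (hn : 0 < n) {x : LL N} (h : x ^ n = 1) :
    ∃ z : Kbar, z ^ n = 1 ∧ algebraMap Kbar (LL N) z = x := by
  have : NeZero n := ⟨hn.ne'⟩
  have h1 : IsPrimitiveRoot ((zetaK n : Kbarˣ) : Kbar) n :=
    IsPrimitiveRoot.coe_units_iff.2 (isPrimitiveRoot_zetaK n)
  have h2 : IsPrimitiveRoot (algebraMap Kbar (LL N) (zetaK n : Kbar)) n :=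
    h1.map_of_injective (algebraMap Kbar (LL N)).injective
  obtain ⟨i, -, hi⟩ := h2.eq_pow_of_pow_eq_one h
  refine ⟨(zetaK n : Kbar) ^ i, ?_, by rw [map_pow, hi]⟩
  rw [← pow_mul, mul_comm, pow_mul, h1.pow_eq_one, one_pow]

/-- two elements with the same `n`-th power differ by a root of unity of `ℚ̄`. -/
theorem exists_eq_mul_of_pow_eq {n : ℕ} (hn : 0 < n) {x y : LL N} (hy : y ≠ 0)
    (h : x ^ n = y ^ n) : ∃ z : Kbar, z ^ n = 1 ∧ x = algebraMap Kbar (LL N) z * y := by
  obtain ⟨z, hz, hzx⟩ := exists_algebraMap_eq_of_pow_eq_one (N := N) hn (x := x / y) (by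
    rw [div_pow, h, div_self (pow_ne_zero _ hy)])
  exact ⟨z, hz, by rw [hzx, div_mul_cancel₀ _ hy]⟩

/-! ### The character -/

section Chi

variable {n : ℕ}

/-- `h` is an `n`-th root of the Kummer unit `u`. -/
def IsRoot (n : ℕ) (u : (FN N)ˣ) (h : LL N) : Prop := h ^ n = PsiL N (u : FN N)

theorem IsRoot.ne_zero {u : (FN N)ˣ} {h : LL N} (hn : 0 < n) (hh : IsRoot n u h) : h ≠ 0 := by
  rintro rfl
  rw [IsRoot, zero_pow hn.ne'] at hh
  exact PsiL_ne_zero u.ne_zero hh.symm

theorem exists_isRoot (hn : 0 < n) {u : (FN N)ˣ} (hu : u ∈ kum N n) : ∃ h : LL N, IsRoot n u h :=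
  exists_root hn u.ne_zero hu

theorem IsRoot.exists_eigen (hn : 0 < n) {u : (FN N)ˣ} {h : LL N} (hh : IsRoot n u h)
    {γ : SL(2, ℤ)} (hγ : γ ∈ Gamma0 N) :
    ∃ z : Kbar, z ^ n = 1 ∧ γ • h = algebraMap Kbar (LL N) z * h :=
  exists_eq_mul_of_pow_eq hn (hh.ne_zero hn) (by
    rw [← smul_pow', hh, smul_PsiL_of_mem hγ])

/-- The eigenvalue does not depend on the root. -/
theorem IsRoot.eigen_unique (hn : 0 < n) {u : (FN N)ˣ} {h h' : LL N} (hh : IsRoot n u h)
    (hh' : IsRoot n u h') {γ : SL(2, ℤ)} {z z' : Kbar}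
    (hz : γ • h = algebraMap Kbar (LL N) z * h) (hz' : γ • h' = algebraMap Kbar (LL N) z' * h') :
    z = z' := by
  obtain ⟨w, -, hw⟩ := exists_eq_mul_of_pow_eq hn (hh.ne_zero hn) (hh'.trans hh.symm)
  rw [hw, smul_mul', smul_algebraMap_Kbar_LL, hz] at hz'
  have hw0 : algebraMap Kbar (LL N) w ≠ 0 := by
    intro h0
    rw [h0, zero_mul] at hw
    exact hh'.ne_zero hn hw
  have h1 : algebraMap Kbar (LL N) z * (algebraMap Kbar (LL N) w * h) =
      algebraMap Kbar (LL N) z' * (algebraMap Kbar (LL N) w * h) := by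
    rw [← hz']; ring
  exact (algebraMap Kbar (LL N)).injective
    (mul_right_cancel₀ (mul_ne_zero hw0 (hh.ne_zero hn)) h1)

/-- A chosen root. -/
noncomputable def root (hn : 0 < n) (u : kum N n) : LL N := (exists_isRoot hn u.2).choose

theorem isRoot_root (hn : 0 < n) (u : kum N n) : IsRoot n (u : (FN N)ˣ) (root hn u) :=
  (exists_isRoot hn u.2).choose_spec

/-- The value of the multiplier character. -/
noncomputable def chiVal (hn : 0 < n) (u : kum N n) (γ : Gamma0 N) : Kbar :=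
  ((isRoot_root hn u).exists_eigen hn γ.2).choose

theorem chiVal_pow (hn : 0 < n) (u : kum N n) (γ : Gamma0 N) : chiVal hn u γ ^ n = 1 :=
  ((isRoot_root hn u).exists_eigen hn γ.2).choose_spec.1

theorem smul_root (hn : 0 < n) (u : kum N n) (γ : Gamma0 N) :
    (γ : SL(2, ℤ)) • root hn u = algebraMap Kbar (LL N) (chiVal hn u γ) * root hn u :=
  ((isRoot_root hn u).exists_eigen hn γ.2).choose_spec.2

/-- Characterisation of `chiVal` by any root. -/
theorem chiVal_eq (hn : 0 < n) (u : kum N n) (γ : Gamma0 N) {h : LL N}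
    (hh : IsRoot n (u : (FN N)ˣ) h) {z : Kbar}
    (hz : (γ : SL(2, ℤ)) • h = algebraMap Kbar (LL N) z * h) : chiVal hn u γ = z :=
  (isRoot_root hn u).eigen_unique hn hh (smul_root hn u γ) hz

/-- every root is an eigenvector with eigenvalue `chiVal`. -/
theorem IsRoot.smul_eq (hn : 0 < n) (u : kum N n) {h : LL N} (hh : IsRoot n (u : (FN N)ˣ) h)
    (γ : Gamma0 N) : (γ : SL(2, ℤ)) • h = algebraMap Kbar (LL N) (chiVal hn u γ) * h := by
  obtain ⟨z, -, hz⟩ := hh.exists_eigen hn γ.2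
  rw [chiVal_eq hn u γ hh hz, hz]

theorem chiVal_one (hn : 0 < n) (u : kum N n) : chiVal hn u 1 = 1 :=
  chiVal_eq hn u 1 (isRoot_root hn u) (by simp)

theorem chiVal_mul (hn : 0 < n) (u : kum N n) (γ γ' : Gamma0 N) :
    chiVal hn u (γ * γ') = chiVal hn u γ * chiVal hn u γ' :=
  chiVal_eq hn u _ (isRoot_root hn u) (by
    rw [Subgroup.coe_mul, mul_smul, smul_root, smul_mul', smul_algebraMap_Kbar_LL, smul_root,
      map_mul]
    ring)

theorem chiVal_mul_left (hn : 0 < n) (u u' : kum N n) (γ : Gamma0 N) :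
    chiVal hn (u * u') γ = chiVal hn u γ * chiVal hn u' γ :=
  chiVal_eq hn _ γ (h := root hn u * root hn u') (by
    show (root hn u * root hn u') ^ n = PsiL N (((u * u' : kum N n) : (FN N)ˣ) : FN N)
    rw [mul_pow, isRoot_root hn u, isRoot_root hn u', Subgroup.coe_mul, Units.val_mul, map_mul])
    (by
      rw [smul_mul', smul_root, smul_root, map_mul]
      ring)

theorem chiVal_of_mem_pows (hn : 0 < n) (u : kum N n) (hu : (u : (FN N)ˣ) ∈ pows N n)
    (γ : Gamma0 N) : chiVal hn u γ = 1 := by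
  obtain ⟨w, hw⟩ := hu
  refine chiVal_eq hn u γ (h := PsiL N (w : FN N)) ?_ ?_
  · show PsiL N (w : FN N) ^ n = PsiL N ((u : (FN N)ˣ) : FN N)
    rw [← hw, ← map_pow]
    rfl
  · rw [smul_PsiL_of_mem γ.2, map_one, one_mul]

/-- **Parabolic and elliptic elements.**  If `σ` acts on some expansion by a twist, the character
kills all conjugates of powers of `σ` lying in `Γ₀(N)`. -/
theorem chiVal_conj_eq_one {C : Type*} [Field C] (φ : LL N →+* LaurentSeries C)
    (hφK : ∀ a : Kbar, ∃ c : C, φ (algebraMap Kbar (LL N) a) = HahnSeries.C c)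
    (σ : SL(2, ℤ)) (μ : Cˣ) (hσ : ∀ x, φ (σ • x) = twist μ (φ x))
    (hn : 0 < n) (u : kum N n) (k : ℕ) (g : SL(2, ℤ)) (hγ : g⁻¹ * σ ^ k * g ∈ Gamma0 N) :
    chiVal hn u ⟨_, hγ⟩ = 1 := by
  have hpow : ∀ (k : ℕ) (x : LL N), φ (σ ^ k • x) = twist (μ ^ k) (φ x) := by
    intro k
    induction k with
    | zero => intro x; simp [twist_one]
    | succ k ih =>
      intro x
      rw [pow_succ, mul_smul, ih, hσ, twist_twist, pow_succ]
  have hcomm : ∀ y : LL N, σ ^ k • g • y = g • (g⁻¹ * σ ^ k * g) • y := by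
    intro y
    rw [← mul_smul, ← mul_smul]
    congr 1
    group
  have hroot := isRoot_root hn u
  have hz := smul_root hn u ⟨_, hγ⟩
  set z := chiVal hn u ⟨_, hγ⟩ with hzdef
  set h := root hn u with hh
  obtain ⟨k', hk', hμ⟩ := exists_order_eq_mul (K := Kbar)
    (φ.comp ((MulSemiringAction.toRingHom SL(2, ℤ) (LL N) g).comp (PsiL N).toRingHom)) (by
      intro a
      obtain ⟨c, hc⟩ := hφK a
      refine ⟨c, ?_⟩
      rw [RingHom.comp_apply, RingHom.comp_apply, AlgHom.toRingHom_eq_coe, RingHom.coe_coe,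
        AlgHom.commutes, MulSemiringAction.toRingHom_apply, smul_algebraMap_Kbar_LL, hc])
    (μ ^ k) (by
      intro x
      rw [RingHom.comp_apply, RingHom.comp_apply, AlgHom.toRingHom_eq_coe, RingHom.coe_coe,
        MulSemiringAction.toRingHom_apply, ← hpow, hcomm, smul_PsiL_of_mem hγ]) u.2
  rw [RingHom.comp_apply, RingHom.comp_apply, AlgHom.toRingHom_eq_coe, RingHom.coe_coe,
    MulSemiringAction.toRingHom_apply] at hk'
  have h1 : algebraMap Kbar (LL N) z = 1 :=
    eigenvalue_eq_one φ (MulSemiringAction.toRingHom SL(2, ℤ) (LL N) (σ ^ k)) (μ ^ k)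
      (fun x => hpow k x) hn (h := g • h) (c := algebraMap Kbar (LL N) z)
      (by
        intro h0
        have h2 : g⁻¹ • g • h = g⁻¹ • (0 : LL N) := by rw [h0]
        rw [inv_smul_smul, smul_zero] at h2
        exact hroot.ne_zero hn h2)
      (hφK z)
      (by
        rw [MulSemiringAction.toRingHom_apply, hcomm]
        have hz' : (g⁻¹ * σ ^ k * g) • h = algebraMap Kbar (LL N) z * h := hz
        rw [hz', smul_mul', smul_algebraMap_Kbar_LL])
      (k := k')
      (by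
        rw [← smul_pow']
        have h3 : h ^ n = PsiL N ((u : (FN N)ˣ) : FN N) := hroot
        rw [h3, hk'])
      hμ
  exact (algebraMap Kbar (LL N)).injective (by rw [h1, map_one])

theorem chiVal_conj_T (hn : 0 < n) (u : kum N n) (k : ℕ) (g : SL(2, ℤ))
    (hγ : g⁻¹ * ModularGroup.T ^ k * g ∈ Gamma0 N) : chiVal hn u ⟨_, hγ⟩ = 1 :=
  chiVal_conj_eq_one (texpLL N).toRingHom (by
    intro a
    refine ⟨a, ?_⟩
    rw [AlgHom.toRingHom_eq_coe, RingHom.coe_coe, AlgHom.commutes,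
      ModularCurve.algebraMap_laurentSeries_eq_single]
    rfl) ModularGroup.T (zetaK N)⁻¹ (fun x => texpLL_T_smul x) hn u k g hγ

theorem wexpM_embL_algebraMap (τ₀ : ℍ) (a : Kbar) :
    ((wexpM τ₀).comp (embL N).toRingHom) (algebraMap Kbar (LL N) a) =
      HahnSeries.C (algebraMap Kbar ℂ a) := by
  rw [RingHom.comp_apply, AlgHom.toRingHom_eq_coe, RingHom.coe_coe, AlgHom.commutes,
    wexpM_algebraMap_Kbar]

theorem chiVal_conj_S (hn : 0 < n) (u : kum N n) (k : ℕ) (g : SL(2, ℤ))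
    (hγ : g⁻¹ * ModularGroup.S ^ k * g ∈ Gamma0 N) : chiVal hn u ⟨_, hγ⟩ = 1 :=
  chiVal_conj_eq_one ((wexpM UpperHalfPlane.I).comp (embL N).toRingHom)
    (fun a => ⟨_, wexpM_embL_algebraMap _ a⟩) ModularGroup.S (-1) (by
      intro x
      rw [RingHom.comp_apply, RingHom.comp_apply, AlgHom.toRingHom_eq_coe, RingHom.coe_coe,
        embL_smul]
      refine wexpM_smul UpperHalfPlane.I (sl ModularGroup.S) (-1) ?_ _
      filter_upwards [S_inv_discInv] with w hw
      rw [← map_inv, sl_smul, hw]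
      simp) hn u k g hγ

theorem chiVal_conj_ST (hn : 0 < n) (u : kum N n) (k : ℕ) (g : SL(2, ℤ))
    (hγ : g⁻¹ * (ModularGroup.S * ModularGroup.T) ^ k * g ∈ Gamma0 N) :
    chiVal hn u ⟨_, hγ⟩ = 1 :=
  chiVal_conj_eq_one ((wexpM rho).comp (embL N).toRingHom)
    (fun a => ⟨_, wexpM_embL_algebraMap _ a⟩) (ModularGroup.S * ModularGroup.T)
    (Units.mk0 (rho : ℂ) rho_ne_zero) (by
      intro x
      rw [RingHom.comp_apply, RingHom.comp_apply, AlgHom.toRingHom_eq_coe, RingHom.coe_coe,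
        embL_smul]
      refine wexpM_smul rho (sl (ModularGroup.S * ModularGroup.T)) _ ?_ _
      filter_upwards [ST_inv_discInv] with w hw
      rw [← map_inv, sl_smul, hw, Units.val_mk0]) hn u k g hγ

end Chi

end Fermat.Agent.GAL.M
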