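/-
Cluster GAL, block M2+M3 (owner helper144).  The multiplier map
`mult : W N n →+ (Additive Γ₀(N) →+ ZMod n)`, characterised by
`γ • h = ζ_n ^ (mult (cls u) γ) * h` for any `n`-th root `h ∈ LL N` of `u`,
and `mult w ∈ homPE N (ZMod n)`.
-/
import Fermat.Agent.GAL.M.Chi
import Fermat.Agent.S16.Lift.Count

set_option autoImplicit false

namespace Fermat.Agent.GAL.M

open UpperHalfPlane AlgebraicCurve CongruenceSubgroup
open Fermat.Agent.S24 Fermat.Agent.S24.B Fermat.Agent.GAL.Mult Fermat.Agent.GAL.E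
open scoped MatrixGroups

variable {N : ℕ} [NeZero N] {n : ℕ} [NeZero n]

theorem isPrimitiveRoot_zetaK_coe (n : ℕ) [NeZero n] :
    IsPrimitiveRoot ((zetaK n : Kbarˣ) : Kbar) n :=
  IsPrimitiveRoot.coe_units_iff.2 (isPrimitiveRoot_zetaK n)

theorem exists_zeta_pow_eq {z : Kbar} (hz : z ^ n = 1) :
    ∃ i : ZMod n, ((zetaK n : Kbarˣ) : Kbar) ^ i.val = z := by
  obtain ⟨i, hi, h⟩ := (isPrimitiveRoot_zetaK_coe n).eq_pow_of_pow_eq_one hz
  exact ⟨(i : ZMod n), by rw [ZMod.val_natCast_of_lt hi, h]⟩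

theorem zeta_pow_val_injective {i j : ZMod n}
    (h : ((zetaK n : Kbarˣ) : Kbar) ^ i.val = ((zetaK n : Kbarˣ) : Kbar) ^ j.val) : i = j :=
  ZMod.val_injective n ((isPrimitiveRoot_zetaK_coe n).pow_inj (ZMod.val_lt i) (ZMod.val_lt j) h)

theorem zeta_pow_val_add (i j : ZMod n) :
    ((zetaK n : Kbarˣ) : Kbar) ^ (i + j).val =
      ((zetaK n : Kbarˣ) : Kbar) ^ i.val * ((zetaK n : Kbarˣ) : Kbar) ^ j.val := by
  rw [ZMod.val_add, ← pow_add, ← pow_eq_pow_mod _ (isPrimitiveRoot_zetaK_coe n).pow_eq_one]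

/-- The exponent of the multiplier character. -/
noncomputable def multVal (u : kum N n) (γ : Gamma0 N) : ZMod n :=
  (exists_zeta_pow_eq (chiVal_pow (NeZero.pos n) u γ)).choose

theorem zeta_pow_multVal (u : kum N n) (γ : Gamma0 N) :
    ((zetaK n : Kbarˣ) : Kbar) ^ (multVal u γ).val = chiVal (NeZero.pos n) u γ :=
  (exists_zeta_pow_eq (chiVal_pow (NeZero.pos n) u γ)).choose_spec

theorem multVal_eq {u : kum N n} {γ : Gamma0 N} {i : ZMod n}
    (h : ((zetaK n : Kbarˣ) : Kbar) ^ i.val = chiVal (NeZero.pos n) u γ) : multVal u γ = i :=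
  zeta_pow_val_injective ((zeta_pow_multVal u γ).trans h.symm)

theorem multVal_mul_right (u : kum N n) (γ γ' : Gamma0 N) :
    multVal u (γ * γ') = multVal u γ + multVal u γ' :=
  multVal_eq (by rw [zeta_pow_val_add, zeta_pow_multVal, zeta_pow_multVal, chiVal_mul])

theorem multVal_mul_left (u u' : kum N n) (γ : Gamma0 N) :
    multVal (u * u') γ = multVal u γ + multVal u' γ :=
  multVal_eq (by rw [zeta_pow_val_add, zeta_pow_multVal, zeta_pow_multVal, chiVal_mul_left])

theorem multVal_eq_zero_iff (u : kum N n) (γ : Gamma0 N) :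
    multVal u γ = 0 ↔ chiVal (NeZero.pos n) u γ = 1 := by
  constructor
  · intro h
    rw [← zeta_pow_multVal, h, ZMod.val_zero, pow_zero]
  · intro h
    exact multVal_eq (by rw [ZMod.val_zero, pow_zero, h])

/-- The multiplier homomorphism of a Kummer unit. -/
noncomputable def multU (u : kum N n) : Additive (Gamma0 N) →+ ZMod n :=
  AddMonoidHom.mk' (fun γ => multVal u (Additive.toMul γ)) fun γ γ' =>
    multVal_mul_right u (Additive.toMul γ) (Additive.toMul γ')

theorem multU_apply (u : kum N n) (γ : Gamma0 N) : multU u (Additive.ofMul γ) = multVal u γ := rfl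

/-- The multiplier map on Kummer units. -/
noncomputable def multM : kum N n →* Multiplicative (Additive (Gamma0 N) →+ ZMod n) :=
  MonoidHom.mk' (fun u => Multiplicative.ofAdd (multU u)) fun u u' => by
    apply Multiplicative.toAdd.injective
    refine AddMonoidHom.ext fun γ => ?_
    exact multVal_mul_left u u' (Additive.toMul γ)

variable (N n) in
/-- **The multiplier map** `W N n → Hom(Γ₀(N), ℤ/n)`. -/
noncomputable def mult : W N n →+ (Additive (Gamma0 N) →+ ZMod n) :=
  MonoidHom.toAdditiveLeft (QuotientGroup.lift _ (multM (N := N) (n := n)) (by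
    rintro u hu
    apply Multiplicative.toAdd.injective
    refine AddMonoidHom.ext fun γ => ?_
    exact (multVal_eq_zero_iff u _).2
      (chiVal_of_mem_pows _ u (Subgroup.mem_subgroupOf.1 hu) _)))

theorem mult_cls (u : kum N n) : mult N n (cls u) = multU u := rfl

theorem mult_cls_apply (u : kum N n) (γ : Gamma0 N) :
    mult N n (cls u) (Additive.ofMul γ) = multVal u γ := rfl

/-- **Characterisation**: any root of `u` is an eigenvector of `γ ∈ Γ₀(N)` with eigenvalue
`ζ_n ^ mult (cls u) γ`. -/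
theorem smul_eq_of_isRoot (u : kum N n) {h : LL N} (hh : IsRoot n (u : (FN N)ˣ) h)
    (γ : Gamma0 N) : (γ : SL(2, ℤ)) • h =
      algebraMap Kbar (LL N)
        (((zetaK n : Kbarˣ) : Kbar) ^ (mult N n (cls u) (Additive.ofMul γ)).val) * h := by
  rw [mult_cls_apply, zeta_pow_multVal]
  exact hh.smul_eq (NeZero.pos n) u γ

/-- **Characterisation** (converse). -/
theorem mult_cls_apply_eq (u : kum N n) {h : LL N} (hh : IsRoot n (u : (FN N)ˣ) h)
    (γ : Gamma0 N) {i : ZMod n}
    (hi : (γ : SL(2, ℤ)) • h = algebraMap Kbar (LL N) (((zetaK n : Kbarˣ) : Kbar) ^ i.val) * h) :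
    mult N n (cls u) (Additive.ofMul γ) = i :=
  multVal_eq (chiVal_eq (NeZero.pos n) u γ hh hi).symm

/-- If the multiplier of `u` is trivial, every root of `u` is `Γ₀(N)`-invariant. -/
theorem smul_eq_self_of_mult_eq_zero (u : kum N n) (h0 : mult N n (cls u) = 0) {h : LL N}
    (hh : IsRoot n (u : (FN N)ˣ) h) (γ : Gamma0 N) : (γ : SL(2, ℤ)) • h = h := by
  rw [smul_eq_of_isRoot u hh γ, h0]
  simp

/-- The multiplier kills parabolic and elliptic elements. -/
theorem mult_mem (w : W N n) : mult N n w ∈ Fermat.Agent.S16.Lift.homPE N (ZMod n) := by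
  obtain ⟨u, rfl⟩ := cls_surjective w
  rw [Fermat.Agent.S16.Lift.mem_homPE]
  intro σ hσ k g h
  rw [mult_cls_apply, multVal_eq_zero_iff]
  rcases hσ with rfl | rfl | rfl
  · exact chiVal_conj_S _ u k g h
  · exact chiVal_conj_ST _ u k g h
  · exact chiVal_conj_T _ u k g h

end Fermat.Agent.GAL.M
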